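import Fermat.Agent.S12.V1.LegCyclo
import Fermat.Agent.S13.Local.FreyP
import Fermat.Agent.S13.Minkowski
import Fermat.Agent.S13
import Fermat.Agent.CFT.Bridge.Cyclo
import Fermat.Prelude.Def_EllipticCurve_FrobeniusTrace

/-!
# PROJECT M, block [V], leaf (V1): a cofixed line of the Frey curve is cyclotomic

`P : FreyPackage`, `N ⊆ E[p]` a Galois-stable line with trivial action on the quotient `E[p] / N`.
Then `Gal(ℚ̄/ℚ)` acts on `N` through the mod `p` cyclotomic character.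

Local part at a valuation subring `A` over `p`, in a Legendre normalisation `D` of the Frey curve
(`S13/Local/FreyP.LegP`): `V₁ := E[p] ∩ K1` is a line (valuation-sum identity + `Excl`), equal to
`N`, and inertia acts on it through the cyclotomic character (`LegCyclo`).  Global part: Minkowski.
-/

set_option autoImplicit false
set_option linter.unusedSectionVars false

noncomputable section

open WeierstrassCurve WeierstrassCurve.Affine WeierstrassCurve.Affine.Point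

namespace Fermat.Agent.S12.V1.FreyCyclo

open Fermat.Agent.S05 Fermat.Agent.S05.LegData Fermat.Agent.S05.FreyLeg
  Fermat.Agent.S13.Global Fermat.Agent.S13.Local.FreyP Fermat.Agent.S05.Kernel
  Fermat.Agent.S12.V1.LegCyclo ExtCitation

local notation "Qbar" => AlgebraicClosure ℚ
local notation "GQ" => (AlgebraicClosure ℚ ≃ₐ[ℚ] AlgebraicClosure ℚ)

variable {P : FreyPackage}

/-- Commuting a Galois element past an integer multiple. -/
theorem smul_zsmul_comm_aux {M : Type*} [AddCommGroup M] {R : Type*} [Ring R] [Module R M]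
    {Γ : Type*} [Group Γ] [DistribMulAction Γ M] (σ : Γ) (k : ℤ) (T : M) {c : R}
    (h : σ • T = c • T) : σ • (k • T) = c • (k • T) := by
  have h1 : σ • (k • T) = k • (σ • T) :=
    map_zsmul (DistribSMul.toAddMonoidHom M σ) k T
  rw [h1, h, smul_comm]

section core

variable {A : ValuationSubring Qbar} {e₁ e₂ d : Qbar}
  {D : LegData Qbar (P.freyCurve⁄Qbar).Point e₁ e₂}

/-- The finite set of non-zero `p`-torsion points. -/
theorem exists_finset_torsion (hcard : Nat.card (Tors P.freyCurve P.p) = P.p ^ 2) :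
    ∃ Vs : Finset (P.freyCurve⁄Qbar).Point, ∀ T, T ∈ Vs ↔ P.p • T = 0 ∧ T ≠ 0 := by
  classical
  have hfin : Finite (Tors P.freyCurve P.p) :=
    Nat.finite_of_card_ne_zero (by rw [hcard]; exact pow_ne_zero _ P.pp.ne_zero)
  have hfinS : (Submodule.torsionBy ℤ (P.freyCurve⁄Qbar).Point P.p :
      Set (P.freyCurve⁄Qbar).Point).Finite := Set.finite_coe_iff.mp hfin
  refine ⟨hfinS.toFinset.erase 0, fun T => ?_⟩
  simp only [Finset.mem_erase, Set.Finite.mem_toFinset, SetLike.mem_coe,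
    Submodule.mem_torsionBy_iff, natCast_zsmul]
  exact and_comm

/-- `V₁ ≠ ⊥`: the kernel of reduction contains a non-zero `p`-torsion point. -/
theorem V1_ne_bot (L : LegP P A D d) (hA : A.LiesOverPrime P.p)
    (hcard : Nat.card (Tors P.freyCurve P.p) = P.p ^ 2)
    (hVS : ∀ S : Finset (P.freyCurve⁄Qbar).Point, (∀ T, T ∈ S ↔ P.p • T = 0 ∧ T ≠ 0) →
      (∏ T ∈ S, (D.X T - e₂)) ^ 2 =
        (e₂ * (e₂ - e₁)) ^ (P.p ^ 2 - 1) / ((P.p : ℕ) : Qbar) ^ 4) :
    V1 L ≠ ⊥ := by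
  classical
  have : Fact P.p.Prime := ⟨P.pp⟩
  have := FreyInst.charZero Qbar
  intro hbot
  obtain ⟨Vs, hVs⟩ := exists_finset_torsion hcard
  have hodd : Odd P.p := P.hp_odd
  have h1 := valuation_prod_tau D P.p L.he₁ L.he2 L.he12 hodd Vs hVs (P.p ^ 2 - 1) (hVS Vs hVs)
  have hempty : Vs.filter (fun T => D.K1 A T) = ∅ := by
    rw [Finset.filter_eq_empty_iff]
    intro T hT hK
    obtain ⟨hpT, hT0⟩ := (hVs T).mp hT
    have hmem : T ∈ Submodule.torsionBy ℤ (P.freyCurve⁄Qbar).Point P.p := by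
      rw [Submodule.mem_torsionBy_iff, natCast_zsmul]
      exact hpT
    have h2 : (⟨T, hmem⟩ : Tors P.freyCurve P.p) ∈ V1 L := hK
    rw [hbot, AddSubgroup.mem_bot] at h2
    exact hT0 (congrArg Subtype.val h2)
  rw [hempty, Finset.prod_empty, map_one] at h1
  have h3 := LocalVal.q_valuation_lt_one hA
  rw [← h1] at h3
  exact lt_irrefl _ h3

/-- `V₁ ≠ ⊤` as soon as a Galois-stable line exists (`Excl`; this is the third case of
`FreyP.inertia_p_of_leg`). -/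
theorem V1_ne_top (L : LegP P A D d) (hA : A.LiesOverPrime P.p)
    (hcard : Nat.card (Tors P.freyCurve P.p) = P.p ^ 2)
    (hVS : ∀ S : Finset (P.freyCurve⁄Qbar).Point, (∀ T, T ∈ S ↔ P.p • T = 0 ∧ T ≠ 0) →
      (∏ T ∈ S, (D.X T - e₂)) ^ 2 =
        (e₂ * (e₂ - e₁)) ^ (P.p ^ 2 - 1) / ((P.p : ℕ) : Qbar) ^ 4)
    (N : Submodule (ZMod P.p) (Tors P.freyCurve P.p)) (hN : IsGaloisStable ℚ N)
    (hbot : N ≠ ⊥) (htop : N ≠ ⊤) : V1 L ≠ ⊤ := by
  classical
  have : Fact P.p.Prime := ⟨P.pp⟩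
  intro hV1
  have hK : ∀ x : Tors P.freyCurve P.p, D.K1 A (x : (P.freyCurve⁄Qbar).Point) := fun x => by
    have : x ∈ V1 L := hV1 ▸ AddSubgroup.mem_top x
    exact this
  obtain ⟨Vs, hVs⟩ := exists_finset_torsion hcard
  have hmemT : ∀ T ∈ Vs, T ∈ Submodule.torsionBy ℤ (P.freyCurve⁄Qbar).Point P.p :=
    fun T hT => by
      rw [Submodule.mem_torsionBy_iff, natCast_zsmul]
      exact ((hVs T).mp hT).1
  let Ns : Finset (P.freyCurve⁄Qbar).Point :=
    Vs.filter fun T => ∃ h : T ∈ Submodule.torsionBy ℤ (P.freyCurve⁄Qbar).Point P.p,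
      (⟨T, h⟩ : Tors P.freyCurve P.p) ∈ N
  have hNs : ∀ T, T ∈ Ns ↔ T ∈ Vs ∧
      ∃ h : T ∈ Submodule.torsionBy ℤ (P.freyCurve⁄Qbar).Point P.p,
        (⟨T, h⟩ : Tors P.freyCurve P.p) ∈ N := fun T => by
    simp only [Ns, Finset.mem_filter]
  refine Fermat.Agent.S13.Local.Excl.excl D P.p hA L.he₁ L.he₂ ?_ Vs
    (fun T hT => ((hVs T).mp hT).2)
    (fun T hT => hK ⟨T, hmemT T hT⟩) (P.p ^ 2 - 1) (hVS Vs hVs) Ns
    (Finset.filter_subset _ _) ?_ ?_ ?_
  · rw [map_mul, L.he2, one_mul, Valuation.map_sub_swap, L.he12]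
  · obtain ⟨x, hxN, hx0⟩ := Submodule.exists_mem_ne_zero_of_ne_bot hbot
    refine ⟨(x : (P.freyCurve⁄Qbar).Point), (hNs _).mpr ⟨(hVs _).mpr ⟨?_, ?_⟩, x.2, hxN⟩⟩
    · exact FreyLegInst.nsmul_eq_zero_of_mem_torsionBy P x
    · intro h0
      exact hx0 (Subtype.ext h0)
  · have hex : ∃ x : Tors P.freyCurve P.p, x ∉ N := by
      by_contra hcon
      push Not at hcon
      exact htop ((Submodule.eq_top_iff').mpr hcon)
    obtain ⟨x, hxN⟩ := hex
    refine ⟨(x : (P.freyCurve⁄Qbar).Point), (hVs _).mpr ⟨?_, ?_⟩, ?_⟩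
    · exact FreyLegInst.nsmul_eq_zero_of_mem_torsionBy P x
    · intro h0
      apply hxN
      have : x = 0 := Subtype.ext h0
      rw [this]
      exact N.zero_mem
    · intro hmem
      obtain ⟨-, h, hN'⟩ := (hNs _).mp hmem
      exact hxN hN'
  · intro σ hσ
    refine ⟨pointHom (W' := P.freyCurve) σ, L.hact σ hσ, ?_, ?_⟩
    · intro T hT
      obtain ⟨hpT, hT0⟩ := (hVs T).mp hT
      refine (hVs _).mpr ⟨?_, ?_⟩
      · rw [← map_nsmul, hpT, _root_.map_zero]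
      · exact smul_ne_zero_point σ hT0
    · intro T hT
      obtain ⟨hTV, h, hTN⟩ := (hNs T).mp hT
      obtain ⟨hpT, hT0⟩ := (hVs T).mp hTV
      have h1 : σ • (⟨T, h⟩ : Tors P.freyCurve P.p) ∈ N := hN σ _ hTN
      refine (hNs _).mpr ⟨(hVs _).mpr ⟨?_, ?_⟩, (σ • (⟨T, h⟩ : Tors P.freyCurve P.p)).2, h1⟩
      · rw [← map_nsmul, hpT, _root_.map_zero]
      · exact smul_ne_zero_point σ hT0

/-- `V₁` is a line as soon as a Galois-stable line exists. -/
theorem card_V1 (L : LegP P A D d) (hA : A.LiesOverPrime P.p)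
    (hcard : Nat.card (Tors P.freyCurve P.p) = P.p ^ 2)
    (hVS : ∀ S : Finset (P.freyCurve⁄Qbar).Point, (∀ T, T ∈ S ↔ P.p • T = 0 ∧ T ≠ 0) →
      (∏ T ∈ S, (D.X T - e₂)) ^ 2 =
        (e₂ * (e₂ - e₁)) ^ (P.p ^ 2 - 1) / ((P.p : ℕ) : Qbar) ^ 4)
    (N : Submodule (ZMod P.p) (Tors P.freyCurve P.p)) (hN : IsGaloisStable ℚ N)
    (hbot : N ≠ ⊥) (htop : N ≠ ⊤) : Nat.card (V1 L) = P.p := by
  have hfin : Finite (Tors P.freyCurve P.p) :=
    Nat.finite_of_card_ne_zero (by rw [hcard]; exact pow_ne_zero _ P.pp.ne_zero)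
  have hdvd : Nat.card (V1 L) ∣ P.p ^ 2 := by
    rw [← hcard]
    exact AddSubgroup.card_addSubgroup_dvd_card (V1 L)
  obtain ⟨k, hk, hkc⟩ := (Nat.dvd_prime_pow P.pp).mp hdvd
  interval_cases k
  · exfalso
    rw [pow_zero] at hkc
    exact V1_ne_bot L hA hcard hVS (AddSubgroup.card_eq_one.mp hkc)
  · rw [pow_one] at hkc
    exact hkc
  · exfalso
    exact V1_ne_top L hA hcard hVS N hN hbot htop
      (AddSubgroup.eq_top_of_card_eq _ (by rw [hkc, hcard]))

/-- Integer multiples of a point killed by `p` are natural multiples. -/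
theorem exists_nsmul_eq_zsmul {G : Type*} [AddCommGroup G] {p : ℕ} (hp0 : p ≠ 0) {T : G}
    (hpT : p • T = 0) (k : ℤ) : ∃ m : ℕ, k • T = m • T := by
  refine ⟨(k % (p : ℤ)).toNat, ?_⟩
  have hp0' : (p : ℤ) ≠ 0 := by exact_mod_cast hp0
  have h1 : k = (k / (p : ℤ)) * (p : ℤ) + k % (p : ℤ) := by
    rw [mul_comm]; exact (Int.mul_ediv_add_emod k p).symm
  have h2 : (((k % (p : ℤ)).toNat : ℕ) : ℤ) = k % (p : ℤ) :=
    Int.toNat_of_nonneg (Int.emod_nonneg _ hp0')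
  have h3 : k • T = (k % (p : ℤ)) • T := by
    conv_lhs => rw [h1]
    rw [add_smul, mul_smul, natCast_zsmul, hpT, smul_zero, zero_add]
  rw [h3]
  conv_lhs => rw [← h2]
  rw [natCast_zsmul]

/-- In a group of prime order every element is a multiple of any non-zero element. -/
theorem exists_zsmul_of_prime_card {G : Type*} [AddCommGroup G] {p : ℕ} [Fact p.Prime]
    (hG : Nat.card G = p) {g : G} (hg : g ≠ 0) (x : G) : ∃ k : ℤ, x = k • g := by
  have h : x ∈ AddSubgroup.zmultiples g := by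
    rw [zmultiples_eq_top_of_prime_card hG hg]
    exact AddSubgroup.mem_top x
  obtain ⟨k, hk⟩ := AddSubgroup.mem_zmultiples_iff.mp h
  exact ⟨k, hk.symm⟩

/-- **Local form of (V1).**  If inertia at `A ∣ p` acts trivially on the quotient by the
Galois-stable line `N`, it acts on `N` through the cyclotomic character. -/
theorem inertia_cyclo_of_leg (L : LegP P A D d) (hA : A.LiesOverPrime P.p)
    (hcard : Nat.card (Tors P.freyCurve P.p) = P.p ^ 2)
    (hVS : ∀ S : Finset (P.freyCurve⁄Qbar).Point, (∀ T, T ∈ S ↔ P.p • T = 0 ∧ T ≠ 0) →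
      (∏ T ∈ S, (D.X T - e₂)) ^ 2 =
        (e₂ * (e₂ - e₁)) ^ (P.p ^ 2 - 1) / ((P.p : ℕ) : Qbar) ^ 4)
    (N : Submodule (ZMod P.p) (Tors P.freyCurve P.p)) (hN : IsGaloisStable ℚ N)
    (hbot : N ≠ ⊥) (htop : N ≠ ⊤) (hcof : A.inertiaSubgroupIn ℚ ≤ cofixer N) :
    haveI : Fact P.p.Prime := ⟨P.pp⟩
    ∀ σ ∈ A.inertiaSubgroupIn ℚ, ∀ x ∈ N,
      σ • x = ((cycloChar P.p σ : (ZMod P.p)ˣ) : ZMod P.p) • x := by
  classical
  have : Fact P.p.Prime := ⟨P.pp⟩
  have := FreyInst.charZero Qbar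
  have hp := P.pp
  have hp2 : P.p ≠ 2 := by have := P.hp5; omega
  have hp3 : 3 ≤ P.p := by have := P.hp5; omega
  have hc1 : Nat.card (V1 L) = P.p := card_V1 L hA hcard hVS N hN hbot htop
  -- a generator of `V₁`
  obtain ⟨g₀, hg₀⟩ := (AddSubgroup.ne_bot_iff_exists_ne_zero).mp (V1_ne_bot L hA hcard hVS)
  set T₀ : Tors P.freyCurve P.p := g₀.1 with hT₀def
  have hT₀V : T₀ ∈ V1 L := g₀.2
  have hT₀0 : T₀ ≠ 0 := fun h => hg₀ (Subtype.ext h)
  have hK₀ : D.K1 A (T₀ : (P.freyCurve⁄Qbar).Point) := hT₀V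
  have hT₀p0 : (T₀ : (P.freyCurve⁄Qbar).Point) ≠ 0 := fun h => hT₀0 (Subtype.ext h)
  have hpT₀ : P.p • (T₀ : (P.freyCurve⁄Qbar).Point) = 0 :=
    FreyLegInst.nsmul_eq_zero_of_mem_torsionBy P T₀
  have hpT₀' : P.p • T₀ = 0 := Subtype.ext hpT₀
  -- every element of `V₁` is a multiple of `T₀`
  have hcycV : ∀ x ∈ V1 L, ∃ m : ℕ, x = m • T₀ := by
    intro x hx
    obtain ⟨k, hk⟩ := exists_zsmul_of_prime_card hc1 hg₀ (⟨x, hx⟩ : V1 L)
    have hk' : x = k • T₀ := congrArg Subtype.val hk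
    obtain ⟨m, hm⟩ := exists_nsmul_eq_zsmul hp.ne_zero hpT₀' k
    exact ⟨m, hk'.trans hm⟩
  have hcycP : ∀ T : (P.freyCurve⁄Qbar).Point, P.p • T = 0 → D.K1 A T →
      ∃ m : ℕ, T = m • (T₀ : (P.freyCurve⁄Qbar).Point) := by
    intro T hpT hK
    have hmem : T ∈ Submodule.torsionBy ℤ (P.freyCurve⁄Qbar).Point P.p := by
      rw [Submodule.mem_torsionBy_iff, natCast_zsmul]
      exact hpT
    obtain ⟨m, hm⟩ := hcycV (⟨T, hmem⟩ : Tors P.freyCurve P.p) hK
    exact ⟨m, congrArg Subtype.val hm⟩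
  -- the valuation of the parameter of `T₀`
  obtain ⟨Vs, hVs⟩ := exists_finset_torsion hcard
  have hval := valuation_tau_pow D P.p hA L.he₁ L.he2 L.he12 hp2 Vs hVs (P.p ^ 2 - 1)
    (hVS Vs hVs) hT₀p0 hK₀ hpT₀ hcycP
  -- `T₀ ∈ N`
  have hT₀N : T₀ ∈ N := by
    by_contra hnot
    refine not_forall_fixed D P.p hA hp3 L.he₁ L.he₂ hT₀p0 hK₀ hval fun σ hσ => ?_
    have h1 : σ • T₀ - T₀ ∈ V1 L := smul_sub_mem_V1 L hσ T₀
    have h2 : σ • T₀ - T₀ ∈ N := hcof hσ T₀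
    have h3 : σ • T₀ - T₀ = 0 := by
      by_contra hne
      have hne' : (⟨σ • T₀ - T₀, h1⟩ : V1 L) ≠ 0 := fun h => hne (congrArg Subtype.val h)
      obtain ⟨k, hk⟩ := exists_zsmul_of_prime_card hc1 hne' g₀
      have hk' : T₀ = k • (σ • T₀ - T₀) := congrArg Subtype.val hk
      apply hnot
      rw [hk']
      exact N.toAddSubgroup.zsmul_mem h2 k
    have h4 : σ • T₀ = T₀ := sub_eq_zero.mp h3
    have h5 : pointHom (W' := P.freyCurve) σ (T₀ : (P.freyCurve⁄Qbar).Point)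
        = (T₀ : (P.freyCurve⁄Qbar).Point) := congrArg Subtype.val h4
    have h6 := Fermat.Agent.S13.Local.Excl.tau_map D (L.hact σ hσ) hT₀p0
    rw [h5] at h6
    exact h6.symm
  -- the action of inertia on `T₀`
  obtain ⟨ζ, hζ⟩ := Fermat.Agent.CFT.Bridge.exists_isPrimitiveRoot_Qbar P.p
  have hcN : Nat.card N = P.p :=
    Fermat.Agent.S13.LineAlgebra.card_eq_of_ne_bot_of_ne_top hcard N hbot htop
  intro σ hσ x hx
  have hs := L.hact σ hσ
  have hKσ : σ • T₀ ∈ V1 L := Kernel.K1.map hs hK₀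
  obtain ⟨n, hn⟩ := hcycV (σ • T₀) hKσ
  have hnP : pointHom (W' := P.freyCurve) σ (T₀ : (P.freyCurve⁄Qbar).Point)
      = n • (T₀ : (P.freyCurve⁄Qbar).Point) := congrArg Subtype.val hn
  have hc := Fermat.Agent.CFT.Bridge.apply_eq_pow_cycloChar P.p hζ σ
  have hcast := cast_eq_of_inertia D hp hA L.he₁ L.he₂ hs hT₀p0 hK₀ hval hζ hnP hc
  rw [ZMod.natCast_zmod_val] at hcast
  -- transport to `x`
  have hg' : (⟨T₀, hT₀N⟩ : N) ≠ 0 := fun h => hT₀0 (congrArg Subtype.val h)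
  obtain ⟨k, hk⟩ := exists_zsmul_of_prime_card hcN hg' (⟨x, hx⟩ : N)
  have hk' : x = k • T₀ := congrArg Subtype.val hk
  have hσT₀ : σ • T₀ = ((cycloChar P.p σ : (ZMod P.p)ˣ) : ZMod P.p) • T₀ := by
    rw [hn, ← hcast, Nat.cast_smul_eq_nsmul]
  rw [hk', smul_zsmul_comm_aux σ k T₀ hσT₀]

end core

/-! ### The three legs -/

section legs

open Fermat.Agent.S13.Local.FreyPArith

variable (P)

/-- **(V1), local at `p`.**  If the inertia group of `A ∣ p` acts trivially on `E[p] / N`, it acts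
on `N` through the cyclotomic character. -/
theorem inertia_cyclo (N : Submodule (ZMod P.p) (Tors P.freyCurve P.p))
    (hN : IsGaloisStable ℚ N) (hbot : N ≠ ⊥) (htop : N ≠ ⊤) (A : ValuationSubring Qbar)
    (hA : A.LiesOverPrime P.p) (hcof : A.inertiaSubgroupIn ℚ ≤ cofixer N) :
    haveI : Fact P.p.Prime := ⟨P.pp⟩
    ∀ σ ∈ A.inertiaSubgroupIn ℚ, ∀ x ∈ N,
      σ • x = ((cycloChar P.p σ : (ZMod P.p)ˣ) : ZMod P.p) • x := by
  have hcard := Fermat.Agent.S13.CU.FreyInputs.natCard_frey P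
  have hVS : Fermat.Agent.S13.Iface.ValSum (P.freyCurve⁄Qbar) P.p :=
    Fermat.Agent.S13.CU.FreyInputs.valSum_frey P
  rcases frey_three_cases_p P with h | h | h
  · exact inertia_cyclo_of_leg (legP_A P hA h.1 h.2) hA hcard
      (fun S hS => Fermat.Agent.S13.CU.Transport.valSum_legA P Qbar hcard hVS S hS)
      N hN hbot htop hcof
  · exact inertia_cyclo_of_leg (legP_B P hA h.1 h.2) hA hcard
      (fun S hS => Fermat.Agent.S13.CU.Transport.valSum_legB P Qbar hcard hVS S hS)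
      N hN hbot htop hcof
  · exact inertia_cyclo_of_leg (legP_C P hA h.1 h.2) hA hcard
      (fun S hS => Fermat.Agent.S13.CU.Transport.valSum_legC P Qbar hcard hVS S hS)
      N hN hbot htop hcof

end legs

/-! ### The global statement -/

/-- The subgroup of Galois elements acting on `N` through the cyclotomic character. -/
def cycloFixer {W : Affine ℚ} {p : ℕ} [Fact p.Prime] (N : Submodule (ZMod p) (Tors W p)) :
    Subgroup GQ where
  carrier := {σ | ∀ x ∈ N, σ • x = ((cycloChar p σ : (ZMod p)ˣ) : ZMod p) • x}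
  one_mem' := fun x _ => by rw [map_one, Units.val_one, one_smul, one_smul]
  mul_mem' := fun {σ τ} hσ hτ x hx => by
    rw [mul_smul, hτ x hx, smul_comm, hσ x hx, smul_smul, map_mul, Units.val_mul, mul_comm]
  inv_mem' := fun {σ} hσ x hx => by
    rw [inv_smul_eq_iff, smul_comm, hσ x hx, smul_smul, ← Units.val_mul, ← map_mul,
      inv_mul_cancel, map_one, Units.val_one, one_smul]

theorem mem_cycloFixer_iff {W : Affine ℚ} {p : ℕ} [Fact p.Prime]
    (N : Submodule (ZMod p) (Tors W p)) (σ : GQ) :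
    σ ∈ cycloFixer N ↔ ∀ x ∈ N, σ • x = ((cycloChar p σ : (ZMod p)ˣ) : ZMod p) • x := Iff.rfl

/-- **(V1)** A cofixed line of the Frey curve is cyclotomic (`cycloChar` form). -/
theorem cycloChar_of_cofixed (P : FreyPackage)
    (N : Submodule (ZMod P.p) (Tors P.freyCurve P.p)) (hN : IsGaloisStable ℚ N)
    (hbot : N ≠ ⊥) (htop : N ≠ ⊤)
    (hcof : ∀ (σ : GQ) (x : Tors P.freyCurve P.p), σ • x - x ∈ N) :
    haveI : Fact P.p.Prime := ⟨P.pp⟩
    ∀ (σ : GQ), ∀ x ∈ N, σ • x = ((cycloChar P.p σ : (ZMod P.p)ˣ) : ZMod P.p) • x := by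
  have : Fact P.p.Prime := ⟨P.pp⟩
  have hcard := Fermat.Agent.S13.CU.FreyInputs.natCard_frey P
  have hfin : Finite (Tors P.freyCurve P.p) :=
    Nat.finite_of_card_ne_zero (by rw [hcard]; exact pow_ne_zero _ P.pp.ne_zero)
  obtain ⟨K₁, hK₁fd, hK₁⟩ := exists_finite_fixing P.freyCurve P.p
  obtain ⟨K₂, hK₂fd, hK₂⟩ := Fermat.Agent.CFT.Bridge.exists_finite_cycloChar_eq_one P.p
  have hKfd : FiniteDimensional ℚ (K₁ ⊔ K₂ : IntermediateField ℚ Qbar) :=
    IntermediateField.finiteDimensional_sup K₁ K₂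
  have hK : (K₁ ⊔ K₂ : IntermediateField ℚ Qbar).fixingSubgroup ≤ cycloFixer N := by
    intro σ hσ x _
    have h1 : σ ∈ K₁.fixingSubgroup := by
      rw [IntermediateField.mem_fixingSubgroup_iff] at hσ ⊢
      exact fun y hy => hσ y ((le_sup_left : K₁ ≤ K₁ ⊔ K₂) hy)
    have h2 : σ ∈ K₂.fixingSubgroup := by
      rw [IntermediateField.mem_fixingSubgroup_iff] at hσ ⊢
      exact fun y hy => hσ y ((le_sup_right : K₂ ≤ K₁ ⊔ K₂) hy)
    rw [hK₁ σ h1 x, hK₂ σ h2, Units.val_one, one_smul]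
  have hI : ∀ l : ℕ, l.Prime → ∀ A : ValuationSubring Qbar, A.LiesOverPrime l →
      A.inertiaSubgroupIn ℚ ≤ cycloFixer N := by
    intro l hl A hA
    by_cases hlp : l = P.p
    · subst hlp
      intro σ hσ
      exact inertia_cyclo P N hN hbot htop A hA (fun τ _ => hcof τ) σ hσ
    · intro σ hσ x hx
      have hc : cycloChar P.p σ = 1 :=
        Fermat.Agent.CFT.Bridge.cycloChar_eq_one_of_mem_inertia P.p hl hlp A hA hσ
      rw [hc, Units.val_one, one_smul]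
      by_cases hl2 : l = 2
      · subst hl2
        exact (Fermat.Agent.S13.hL2 P N hN hbot htop A hA hσ).1 x hx
      · exact Fermat.Agent.S05.result P hl hl2 hlp A hA σ hσ x
  intro σ
  exact Fermat.Agent.S13.Minkowski.mem_of_inertia_le (cycloFixer N) (K₁ ⊔ K₂) hK hI σ

/-- **(V1)** A cofixed line of the Frey curve is cyclotomic (`cycloExp` form). -/
theorem cyclo_of_cofixed (P : FreyPackage)
    (N : Submodule (ZMod P.p) (Tors P.freyCurve P.p)) (hN : IsGaloisStable ℚ N)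
    (hbot : N ≠ ⊥) (htop : N ≠ ⊤)
    (hcof : ∀ (σ : GQ) (x : Tors P.freyCurve P.p), σ • x - x ∈ N) :
    haveI : Fact P.p.Prime := ⟨P.pp⟩
    ∀ (σ : GQ), ∀ x ∈ N, σ • x = ((cycloExp P.p σ : ℕ) : ZMod P.p) • x := by
  have : Fact P.p.Prime := ⟨P.pp⟩
  intro σ x hx
  rw [← coe_cycloChar]
  exact cycloChar_of_cofixed P N hN hbot htop hcof σ x hx

end Fermat.Agent.S12.V1.FreyCyclo
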