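import Fermat.Agent.S05.Kernel
import Fermat.Agent.S05.Core
import Fermat.Agent.S05.LocalVal
import Fermat.Agent.S13.InertiaInvariant
import Fermat.Agent.S13.Local.Excl
import Fermat.Agent.S13.Local.LocalP

/-!
# PROJECT M, block [V], leaf (V1), local part: inertia at `p` acts on the `p`-torsion of the kernel
of reduction through the cyclotomic character

Abstract Legendre frame of `S05`: `D : LegData ℚ̄ G e₁ e₂` (`Y² = X (X - e₁) (X - e₂)`), `A` a
valuation subring of `ℚ̄` over the odd prime `p`, `v e₁ ≤ 1`, `v e₂ = 1`, `v (e₁ - e₂) = 1`.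

* `valuation_X_sub_eq_one` : a point `T` of order `p` outside the kernel of reduction `K1` has
  `v (X T - e₂) = 1`;
* `valuation_prod_tau` : the valuation-sum identity gives `v (∏_{T ∈ E[p] ∩ K1, T ≠ 0} τ T) = v p`;
* `valuation_tau_pow` : if `E[p] ∩ K1 = ⟨T₀⟩` then `v (τ T₀) ^ (p - 1) = v p`;
* `valuation_zeta_sub_one_pow` : `v (ζ - 1) ^ (p - 1) = v p`;
* `cast_eq_of_inertia` : if `s T₀ = n • T₀` and `σ ζ = ζ ^ c` for an inertia element `(σ, s)`, then
  `p ∣ n - c`;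
* `exists_not_fixed` : inertia does not fix `T₀`.
-/

set_option autoImplicit false
set_option linter.unusedSectionVars false

namespace Fermat.Agent.S12.V1.LegCyclo

open Fermat.Agent.S05 Fermat.Agent.S05.LegData Fermat.Agent.S05.Kernel
  Fermat.Agent.S13.InertiaInvariant Fermat.Agent.S13.Local.Excl

local notation "Qbar" => AlgebraicClosure ℚ

variable {G : Type*} [AddCommGroup G] {e₁ e₂ : Qbar} (D : LegData Qbar G e₁ e₂)
  {A : ValuationSubring Qbar}

/-- An odd multiple of a `2`-torsion point is the point itself. -/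
theorem odd_nsmul_of_two_torsion {p : ℕ} (hodd : Odd p) {T : G} (h2 : T + T = 0) : p • T = T := by
  obtain ⟨k, rfl⟩ := hodd
  rw [add_smul, one_smul, mul_comm, mul_smul, two_smul, h2, smul_zero, zero_add]

/-- A point killed by an odd number and by `2` is zero. -/
theorem eq_zero_of_odd_nsmul_of_two_torsion {p : ℕ} (hodd : Odd p) {T : G} (hp : p • T = 0)
    (h2 : T + T = 0) : T = 0 := by
  rw [← odd_nsmul_of_two_torsion hodd h2, hp]

/-- **(a)** A point of odd order outside the kernel of reduction does not reduce to the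
`2`-torsion point `(e₂, 0)`. -/
theorem valuation_X_sub_eq_one (he₁ : A.valuation e₁ ≤ 1) (he2 : A.valuation e₂ = 1)
    (he12 : A.valuation (e₁ - e₂) = 1) {p : ℕ} (hodd : Odd p) {T : G} (hT0 : T ≠ 0)
    (hpT : p • T = 0) (hnK : ¬ D.K1 A T) : A.valuation (D.X T - e₂) = 1 := by
  have hX : A.valuation (D.X T) ≤ 1 := not_lt.mp fun h => hnK (Or.inr h)
  have hle : A.valuation (D.X T - e₂) ≤ 1 :=
    le_trans (A.valuation.map_sub _ _) (max_le hX (le_of_eq he2))
  by_contra hne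
  have hlt : A.valuation (D.X T - e₂) < 1 := lt_of_le_of_ne hle hne
  obtain ⟨T₂, hT₂0, hX₂, hY₂⟩ := D.exists_point e₂ 0 (by ring)
  have h22 : T₂ + T₂ = 0 := D.two_of_Y T₂ hT₂0 hY₂
  have hXne : D.X T ≠ D.X T₂ := by
    intro h
    rcases D.eq_or_eq_neg_of_X_eq hT0 hT₂0 h with h' | h'
    · apply hT0
      rw [h'] at hpT ⊢
      exact eq_zero_of_odd_nsmul_of_two_torsion hodd hpT h22
    · apply hT0
      have h22' : -T₂ + -T₂ = 0 := by rw [← neg_add, h22, neg_zero]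
      rw [h'] at hpT ⊢
      exact eq_zero_of_odd_nsmul_of_two_torsion hodd hpT h22'
  have hne0 : D.X T - e₂ ≠ 0 := by
    rw [hX₂] at hXne
    exact sub_ne_zero.mpr hXne
  have hsum0 : T + T₂ ≠ 0 := D.add_ne T T₂ hT0 hT₂0 hXne
  have hadd := D.add_X T T₂ hT0 hT₂0 hXne
  rw [hX₂, hY₂] at hadd
  have heqn := D.eqn T hT0
  have hkey : D.X (T + T₂) * (D.X T - e₂) = e₂ * (D.X T - e₁) := by
    have hne0' : e₂ - D.X T ≠ 0 := by
      intro h
      apply hne0
      rw [← neg_sub, h, neg_zero]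
    rw [hadd]
    have h1 : ((0 - D.Y T) / (e₂ - D.X T)) ^ 2 = D.X T * (D.X T - e₁) / (D.X T - e₂) := by
      rw [div_pow, eq_div_iff hne0, div_mul_eq_mul_div, div_eq_iff (pow_ne_zero 2 hne0')]
      linear_combination (D.X T - e₂) * heqn
    rw [h1]
    field_simp
    ring
  have hv1 : A.valuation (D.X T - e₁) = 1 := by
    have h1 : D.X T - e₁ = -((e₁ - e₂) - (D.X T - e₂)) := by ring
    rw [h1, Valuation.map_neg, A.valuation.map_sub_eq_of_lt_left (by rw [he12]; exact hlt), he12]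
  have hv2 := congrArg A.valuation hkey
  rw [map_mul, map_mul, he2, hv1, mul_one] at hv2
  have hv0 : A.valuation (D.X T - e₂) ≠ 0 := by rwa [Ne, map_eq_zero]
  have hbig : 1 < A.valuation (D.X (T + T₂)) := by
    by_contra hcon
    rw [not_lt] at hcon
    have : A.valuation (D.X (T + T₂)) * A.valuation (D.X T - e₂) < 1 := by
      rw [mul_comm]
      exact mul_lt_one_of_lt_of_le hlt hcon
    rw [hv2] at this
    exact lt_irrefl _ this
  have hK : D.K1 A (T + T₂) := Or.inr hbig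
  have hKp : D.K1 A (p • (T + T₂)) :=
    Fermat.Agent.S13.Local.LocalP.K1_nsmul he₁ (le_of_eq he2) hK p
  rw [smul_add, hpT, zero_add, odd_nsmul_of_two_torsion hodd h22] at hKp
  rcases hKp with h | h
  · exact hT₂0 h
  · rw [hX₂, he2] at h
    exact lt_irrefl _ h

/-- **(b)** The valuation-sum identity computes the valuation of the product of the parameters of
the non-zero `p`-torsion points of the kernel of reduction. -/
theorem valuation_prod_tau (q : ℕ) [Fact q.Prime]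
    (he₁ : A.valuation e₁ ≤ 1) (he2 : A.valuation e₂ = 1) (he12 : A.valuation (e₁ - e₂) = 1)
    {p : ℕ} (hodd : Odd p) (Vs : Finset G) (hVs : ∀ T, T ∈ Vs ↔ p • T = 0 ∧ T ≠ 0) (n : ℕ)
    (hVS : (∏ T ∈ Vs, (D.X T - e₂)) ^ 2 = (e₂ * (e₂ - e₁)) ^ n / ((q : ℕ) : Qbar) ^ 4)
    [DecidablePred fun T => D.K1 A T] :
    A.valuation (∏ T ∈ Vs.filter (fun T => D.K1 A T), tau D T) = A.valuation ((q : ℕ) : Qbar) := by
  set v := A.valuation with hv
  have he₂ : v e₂ ≤ 1 := le_of_eq he2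
  have hq0 : ((q : ℕ) : Qbar) ≠ 0 := by exact_mod_cast (Fact.out : q.Prime).ne_zero
  have hvq0 : v ((q : ℕ) : Qbar) ≠ 0 := by rwa [Ne, map_eq_zero]
  have hD : v (e₂ * (e₂ - e₁)) = 1 := by
    rw [map_mul, he2, one_mul, Valuation.map_sub_swap, he12]
  -- valuations of the factors
  have h1 : ∀ T ∈ Vs, v (D.X T - e₂) * (if D.K1 A T then v (tau D T) ^ 2 else 1) = 1 := by
    intro T hT
    obtain ⟨hpT, hT0⟩ := (hVs T).mp hT
    by_cases hK : D.K1 A T
    · rw [if_pos hK, valuation_X_sub D he₂ hT0 hK]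
      exact valuation_X_mul_tau_sq D he₁ he₂ hT0 hK
    · rw [if_neg hK, mul_one]
      exact valuation_X_sub_eq_one D he₁ he2 he12 hodd hT0 hpT hK
  have h2 : v (∏ T ∈ Vs, (D.X T - e₂)) *
      v (∏ T ∈ Vs.filter (fun T => D.K1 A T), tau D T) ^ 2 = 1 := by
    rw [map_prod, map_prod, ← Finset.prod_pow, Finset.prod_filter, ← Finset.prod_mul_distrib]
    exact Finset.prod_eq_one h1
  have h3 : v (∏ T ∈ Vs, (D.X T - e₂)) ^ 2 = (v ((q : ℕ) : Qbar) ^ 4)⁻¹ := by
    have := congrArg v hVS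
    rw [map_pow, map_div₀, map_pow, hD, one_pow, map_pow, one_div] at this
    exact this
  have h4 : v (∏ T ∈ Vs.filter (fun T => D.K1 A T), tau D T) ^ 4 = v ((q : ℕ) : Qbar) ^ 4 := by
    have h5 : (v (∏ T ∈ Vs, (D.X T - e₂)) *
        v (∏ T ∈ Vs.filter (fun T => D.K1 A T), tau D T) ^ 2) ^ 2 = 1 := by
      rw [h2, one_pow]
    rw [mul_pow, h3, ← pow_mul] at h5
    have hne : v ((q : ℕ) : Qbar) ^ 4 ≠ 0 := pow_ne_zero _ hvq0
    field_simp at h5
    exact h5
  exact (pow_left_inj₀ zero_le zero_le (by norm_num : (4 : ℕ) ≠ 0)).mp h4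

/-! ### The cyclic case -/

/-- Natural numbers `0 < m < p` are units at a place over `p`. -/
theorem valuation_natCast_eq_one {p : ℕ} (hp : p.Prime) (hA : A.LiesOverPrime p) {m : ℕ}
    (hm0 : 0 < m) (hmp : m < p) : A.valuation ((m : ℕ) : Qbar) = 1 := by
  have h : ¬ (p : ℤ) ∣ (m : ℤ) := by
    intro hd
    have : p ∣ m := Int.natCast_dvd_natCast.mp hd
    exact Nat.not_dvd_of_pos_of_lt hm0 hmp this
  have := LocalVal.intCast_valuation_eq_one hp hA h
  simpa using this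

/-- The parameter of a multiple `m • T₀`, `0 < m < p`, has the valuation of the parameter of
`T₀`. -/
theorem valuation_tau_nsmul {p : ℕ} (hp : p.Prime) (hA : A.LiesOverPrime p)
    (he₁ : A.valuation e₁ ≤ 1) (he₂ : A.valuation e₂ ≤ 1) {T₀ : G} (hT₀ : T₀ ≠ 0)
    (hK₀ : D.K1 A T₀) {m : ℕ} (hm0 : 0 < m) (hmp : m < p) :
    A.valuation (tau D (m • T₀)) = A.valuation (tau D T₀) := by
  obtain ⟨hτ, -⟩ := tau_facts he₁ he₂ hT₀ hK₀
  obtain ⟨-, ε, hε, hrec⟩ := nsmul_aux he₁ he₂ hT₀ hK₀ m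
  have hm : A.valuation ((m : ℕ) : Qbar) = 1 := valuation_natCast_eq_one hp hA hm0 hmp
  have hsmall : A.valuation (tau D T₀ ^ 2 * ε) < A.valuation ((m : ℕ) : Qbar) := by
    rw [hm, map_mul, map_pow]
    calc A.valuation (tau D T₀) ^ 2 * A.valuation ε ≤ A.valuation (tau D T₀) ^ 2 * 1 := by gcongr
      _ = A.valuation (tau D T₀) ^ 2 := mul_one _
      _ < 1 := pow_lt_one₀ zero_le hτ two_ne_zero
  rw [hrec, map_mul, A.valuation.map_add_eq_of_lt_left hsmall, hm, mul_one]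

/-- **(c)** If the `p`-torsion of the kernel of reduction is generated by `T₀ ≠ 0`, then
`v (τ T₀) ^ (p - 1) = v p`. -/
theorem valuation_tau_pow (p : ℕ) [Fact p.Prime] (hA : A.LiesOverPrime p)
    (he₁ : A.valuation e₁ ≤ 1) (he2 : A.valuation e₂ = 1) (he12 : A.valuation (e₁ - e₂) = 1)
    (hp2 : p ≠ 2) (Vs : Finset G) (hVs : ∀ T, T ∈ Vs ↔ p • T = 0 ∧ T ≠ 0) (n : ℕ)
    (hVS : (∏ T ∈ Vs, (D.X T - e₂)) ^ 2 = (e₂ * (e₂ - e₁)) ^ n / ((p : ℕ) : Qbar) ^ 4)
    {T₀ : G} (hT₀ : T₀ ≠ 0) (hK₀ : D.K1 A T₀) (hpT₀ : p • T₀ = 0)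
    (hcyc : ∀ T, p • T = 0 → D.K1 A T → ∃ m : ℕ, T = m • T₀) :
    A.valuation (tau D T₀) ^ (p - 1) = A.valuation ((p : ℕ) : Qbar) := by
  classical
  have hp : p.Prime := Fact.out
  have hodd : Odd p := hp.odd_of_ne_two hp2
  have he₂ : A.valuation e₂ ≤ 1 := le_of_eq he2
  have hne : ∀ m : ℕ, 0 < m → m < p → m • T₀ ≠ 0 := fun m hm0 hmp =>
    K1.nsmul_ne_zero he₁ he₂ (valuation_natCast_eq_one hp hA hm0 hmp) hT₀ hK₀
  have hfilter : Vs.filter (fun T => D.K1 A T) = (Finset.Ico 1 p).image (fun m : ℕ => m • T₀) := by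
    ext T
    simp only [Finset.mem_filter, Finset.mem_image, Finset.mem_Ico]
    constructor
    · rintro ⟨hT, hK⟩
      obtain ⟨hpT, hT0⟩ := (hVs T).mp hT
      obtain ⟨m, rfl⟩ := hcyc T hpT hK
      have hmod : m • T₀ = (m % p) • T₀ := by
        conv_lhs => rw [← Nat.mod_add_div m p]
        rw [add_smul, mul_smul, smul_comm, hpT₀, smul_zero, add_zero]
      refine ⟨m % p, ⟨?_, Nat.mod_lt _ hp.pos⟩, hmod.symm⟩
      rw [Nat.one_le_iff_ne_zero]
      intro h0
      apply hT0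
      rw [hmod, h0, zero_smul]
    · rintro ⟨m, ⟨hm1, hmp⟩, rfl⟩
      refine ⟨(hVs _).mpr ⟨?_, hne m hm1 hmp⟩, Fermat.Agent.S13.Local.LocalP.K1_nsmul he₁ he₂ hK₀ m⟩
      rw [smul_comm, hpT₀, smul_zero]
  have hinj : Set.InjOn (fun m : ℕ => m • T₀) (Finset.Ico 1 p : Set ℕ) := by
    have key : ∀ a b : ℕ, a < b → b < p → a • T₀ ≠ b • T₀ := by
      intro a b hab hbp h
      have h1 : (b - a) • T₀ = 0 := by
        have h2 : b • T₀ = (b - a) • T₀ + a • T₀ := by
          rw [← add_smul, Nat.sub_add_cancel hab.le]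
        rw [← h, right_eq_add] at h2
        exact h2
      exact hne (b - a) (Nat.sub_pos_of_lt hab) (lt_of_le_of_lt (Nat.sub_le _ _) hbp) h1
    intro a ha b hb hab
    simp only [Finset.coe_Ico, Set.mem_Ico] at ha hb
    rcases lt_trichotomy a b with h | h | h
    · exact absurd hab (key a b h hb.2)
    · exact h
    · exact absurd hab.symm (key b a h ha.2)
  have hprod := valuation_prod_tau D p he₁ he2 he12 hodd Vs hVs n hVS
  rw [hfilter, Finset.prod_image hinj, map_prod] at hprod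
  rw [← hprod]
  have hconst : ∀ m ∈ Finset.Ico 1 p, A.valuation (tau D (m • T₀)) = A.valuation (tau D T₀) := by
    intro m hm
    rw [Finset.mem_Ico] at hm
    exact valuation_tau_nsmul D hp hA he₁ he₂ hT₀ hK₀ hm.1 hm.2
  rw [Finset.prod_congr rfl hconst, Finset.prod_const, Nat.card_Ico]

/-! ### The cyclotomic side -/

/-- `v (1 - x ^ j) ≤ v (1 - x)` for `x ∈ A`. -/
theorem valuation_one_sub_pow_le {x : Qbar} (hx : x ∈ A) (j : ℕ) :
    A.valuation (1 - x ^ j) ≤ A.valuation (1 - x) := by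
  rw [← geom_sum_mul_neg x j, map_mul]
  have h : A.valuation (∑ i ∈ Finset.range j, x ^ i) ≤ 1 := by
    rw [A.valuation_le_one_iff]
    exact sum_mem fun i _ => pow_mem hx i
  calc A.valuation (∑ i ∈ Finset.range j, x ^ i) * A.valuation (1 - x)
      ≤ 1 * A.valuation (1 - x) := by gcongr
    _ = A.valuation (1 - x) := one_mul _

/-- **`v (ζ - 1) ^ (p - 1) = v p`** for a primitive `p`-th root of unity `ζ`. -/
theorem valuation_zeta_sub_one_pow {p : ℕ} (hp : p.Prime) {ζ : Qbar}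
    (hζ : IsPrimitiveRoot ζ p) :
    A.valuation (ζ - 1) ^ (p - 1) = A.valuation ((p : ℕ) : Qbar) := by
  have hζA : ζ ∈ A := by
    rcases A.mem_or_inv_mem ζ with h | h
    · exact h
    · have h1 : ζ = ζ⁻¹ ^ (p - 1) := by
        have h2 : ζ * ζ ^ (p - 1) = 1 := by
          rw [← pow_succ', Nat.sub_add_cancel hp.one_le, hζ.pow_eq_one]
        rw [inv_pow]
        exact eq_inv_of_mul_eq_one_left h2
      rw [h1]
      exact pow_mem h _
  obtain ⟨n, hn⟩ : ∃ n, p = n + 1 := ⟨p - 1, (Nat.sub_add_cancel hp.one_le).symm⟩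
  have hζ' : IsPrimitiveRoot ζ (n + 1) := hn ▸ hζ
  have hprod := hζ'.prod_one_sub_pow_eq_order
  have hn' : p - 1 = n := by omega
  have hcast : ((p : ℕ) : Qbar) = (n : Qbar) + 1 := by rw [hn]; push_cast; ring
  rw [hcast, ← hprod, map_prod, hn']
  have hconst : ∀ k ∈ Finset.range n, A.valuation (1 - ζ ^ (k + 1)) = A.valuation (ζ - 1) := by
    intro k hk
    rw [Finset.mem_range] at hk
    rw [A.valuation.map_sub_swap ζ 1]
    apply le_antisymm (valuation_one_sub_pow_le hζA (k + 1))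
    -- the other inequality: `ζ` is a power of `ζ ^ (k + 1)`
    have hcop : Nat.Coprime (k + 1) p := by
      rw [Nat.coprime_comm, Nat.Prime.coprime_iff_not_dvd hp]
      exact Nat.not_dvd_of_pos_of_lt (Nat.succ_pos k) (by omega)
    obtain ⟨m, -, hm⟩ := Nat.exists_mul_mod_eq_one_of_coprime hcop hp.one_lt
    have h1 : (ζ ^ (k + 1)) ^ m = ζ := by
      rw [← pow_mul, pow_eq_pow_mod _ hζ.pow_eq_one, hm, pow_one]
    calc A.valuation (1 - ζ) = A.valuation (1 - (ζ ^ (k + 1)) ^ m) := by rw [h1]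
      _ ≤ A.valuation (1 - ζ ^ (k + 1)) := valuation_one_sub_pow_le (pow_mem hζA _) m
  rw [Finset.prod_congr rfl hconst, Finset.prod_const, Finset.card_range]

/-! ### Comparison of the two tame characters -/

/-- **(c')** If `T₀ ≠ 0` lies in the kernel of reduction, `v (τ T₀) ^ (p - 1) = v p`, and an inertia
element `(σ, s)` acts by `s T₀ = n • T₀` and `σ ζ = ζ ^ c`, then `n = c` in `ZMod p`. -/
theorem cast_eq_of_inertia {p : ℕ} (hp : p.Prime) (hA : A.LiesOverPrime p)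
    (he₁ : A.valuation e₁ ≤ 1) (he₂ : A.valuation e₂ ≤ 1)
    {σ : Qbar →+* Qbar} {s : G →+ G} (hs : D.InertiaAct A σ s)
    {T₀ : G} (hT₀ : T₀ ≠ 0) (hK₀ : D.K1 A T₀)
    (hval : A.valuation (tau D T₀) ^ (p - 1) = A.valuation ((p : ℕ) : Qbar))
    {ζ : Qbar} (hζ : IsPrimitiveRoot ζ p) {n c : ℕ} (hn : s T₀ = n • T₀) (hc : σ ζ = ζ ^ c) :
    ((n : ℕ) : ZMod p) = ((c : ℕ) : ZMod p) := by
  set z := tau D T₀ with hzdef
  obtain ⟨hz1, hz0⟩ := tau_facts he₁ he₂ hT₀ hK₀
  set π := ζ - 1 with hπdef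
  have hπ0 : π ≠ 0 := sub_ne_zero.mpr (hζ.ne_one hp.one_lt)
  have hp1 : p - 1 ≠ 0 := by have := hp.two_le; omega
  have hvπ : A.valuation π ^ (p - 1) = A.valuation ((p : ℕ) : Qbar) :=
    valuation_zeta_sub_one_pow hp hζ
  have hzπ : A.valuation z = A.valuation π :=
    (pow_left_inj₀ zero_le zero_le hp1).mp (hval.trans hvπ.symm)
  have hπ1 : A.valuation π < 1 := by rw [← hzπ]; exact hz1
  -- the unit `w`
  set w := z / π with hwdef
  have hvw : A.valuation w = 1 := by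
    rw [hwdef, map_div₀, hzπ]
    exact div_self (by rwa [Ne, map_eq_zero])
  have hwA : w ∈ A := (A.valuation_le_one_iff w).mp hvw.le
  have hδ : A.valuation (σ w - w) < 1 := A.mem_nonunits_iff.mp (hs.sub_mem w hwA)
  -- the action on `z`
  obtain ⟨-, ε, hε, hrec⟩ := nsmul_aux he₁ he₂ hT₀ hK₀ n
  have hσz : σ z = z * ((n : Qbar) + z ^ 2 * ε) := by
    rw [hzdef, ← tau_map D hs hT₀, hn, hrec]
  -- the action on `π`
  have hζA : ζ ∈ A := by
    rcases A.mem_or_inv_mem ζ with h | h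
    · exact h
    · have h1 : ζ = ζ⁻¹ ^ (p - 1) := by
        have h2 : ζ * ζ ^ (p - 1) = 1 := by
          rw [← pow_succ', Nat.sub_add_cancel hp.one_le, hζ.pow_eq_one]
        rw [inv_pow]
        exact eq_inv_of_mul_eq_one_left h2
      rw [h1]
      exact pow_mem h _
  set g := ∑ i ∈ Finset.range c, ζ ^ i with hgdef
  have hσπ : σ π = π * g := by
    rw [hπdef, map_sub, map_one, hc, hgdef, mul_geom_sum]
  have hgA : A.valuation g ≤ 1 := by
    rw [A.valuation_le_one_iff]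
    exact sum_mem fun i _ => pow_mem hζA i
  -- `g ≡ c`
  have hgc : A.valuation (g - (c : Qbar)) < 1 := by
    have h1 : g - (c : Qbar) = ∑ i ∈ Finset.range c, (ζ ^ i - 1) := by
      rw [Finset.sum_sub_distrib, Finset.sum_const, Finset.card_range, nsmul_eq_mul, mul_one]
    rw [h1, ← A.mem_nonunits_iff]
    refine sum_mem fun i _ => ?_
    rw [A.mem_nonunits_iff]
    have h2 : A.valuation (ζ ^ i - 1) ≤ A.valuation (ζ - 1) := by
      rw [A.valuation.map_sub_swap, A.valuation.map_sub_swap ζ 1]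
      exact valuation_one_sub_pow_le hζA i
    exact lt_of_le_of_lt h2 hπ1
  -- the key relation
  have hrel : σ w * g = w * ((n : Qbar) + z ^ 2 * ε) := by
    have h1 : σ w * σ π = σ z := by
      rw [← map_mul, hwdef, div_mul_cancel₀ _ hπ0]
    rw [hσπ, hσz] at h1
    have h2 : z = w * π := by rw [hwdef, div_mul_cancel₀ _ hπ0]
    have h3 : π * (σ w * g) = π * (w * ((n : Qbar) + z ^ 2 * ε)) := by
      calc π * (σ w * g) = σ w * (π * g) := by ring
        _ = z * ((n : Qbar) + z ^ 2 * ε) := h1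
        _ = π * (w * ((n : Qbar) + z ^ 2 * ε)) := by rw [h2]; ring
    exact mul_left_cancel₀ hπ0 h3
  have hkey : w * (g - (n : Qbar) - z ^ 2 * ε) = -((σ w - w) * g) := by
    linear_combination hrel
  have hv1 : A.valuation (g - (n : Qbar) - z ^ 2 * ε) < 1 := by
    have h1 := congrArg A.valuation hkey
    rw [map_mul, hvw, one_mul, Valuation.map_neg, map_mul] at h1
    rw [h1]
    exact mul_lt_one_of_lt_of_le hδ hgA
  have hv2 : A.valuation (z ^ 2 * ε) < 1 := by
    rw [map_mul, map_pow]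
    calc A.valuation z ^ 2 * A.valuation ε ≤ A.valuation z ^ 2 * 1 := by gcongr
      _ = A.valuation z ^ 2 := mul_one _
      _ < 1 := pow_lt_one₀ zero_le hz1 two_ne_zero
  -- conclusion: `n - c` is a non-unit integer
  have hnc : (((n : ℤ) - (c : ℤ) : ℤ) : Qbar) ∈ A.nonunits := by
    have h1 : (((n : ℤ) - (c : ℤ) : ℤ) : Qbar)
        = (g - (c : Qbar)) - (g - (n : Qbar) - z ^ 2 * ε) - z ^ 2 * ε := by
      push_cast
      ring
    rw [h1]
    exact sub_mem (sub_mem (A.mem_nonunits_iff.mpr hgc) (A.mem_nonunits_iff.mpr hv1))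
      (A.mem_nonunits_iff.mpr hv2)
  have hdvd : (p : ℤ) ∣ (n : ℤ) - (c : ℤ) := (LocalVal.intCast_mem_nonunits_iff hp hA _).mp hnc
  have h2 : (((n : ℤ) : ZMod p)) = ((c : ℤ) : ZMod p) := by
    rw [ZMod.intCast_eq_intCast_iff_dvd_sub]
    have : (c : ℤ) - (n : ℤ) = -((n : ℤ) - (c : ℤ)) := by ring
    rw [this]
    exact (dvd_neg).mpr hdvd
  simpa using h2

/-- **(d)** If `T₀ ≠ 0` lies in the kernel of reduction and `v (τ T₀) ^ (p - 1) = v p` with
`p ≥ 3`, the parameter `τ T₀` is not fixed by the inertia group. -/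
theorem not_forall_fixed (p : ℕ) [Fact p.Prime] (hA : A.LiesOverPrime p) (hp3 : 3 ≤ p)
    (he₁ : A.valuation e₁ ≤ 1) (he₂ : A.valuation e₂ ≤ 1)
    {T₀ : G} (hT₀ : T₀ ≠ 0) (hK₀ : D.K1 A T₀)
    (hval : A.valuation (tau D T₀) ^ (p - 1) = A.valuation ((p : ℕ) : Qbar))
    (hfix : ∀ σ ∈ A.inertiaSubgroupIn ℚ, σ (tau D T₀) = tau D T₀) : False := by
  obtain ⟨hz1, hz0⟩ := tau_facts he₁ he₂ hT₀ hK₀
  have hle := valuation_le_of_fixed p hA hz0 hfix hz1
  rw [← hval] at hle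
  have hv0 : A.valuation (tau D T₀) ≠ 0 := by rwa [Ne, map_eq_zero]
  have h2 : A.valuation (tau D T₀) ^ (p - 1) ≤ A.valuation (tau D T₀) ^ 2 :=
    pow_le_pow_right_of_le_one' hz1.le (by omega)
  have h3 : A.valuation (tau D T₀) ^ 2 < A.valuation (tau D T₀) := by
    rw [pow_two]
    calc A.valuation (tau D T₀) * A.valuation (tau D T₀)
        < A.valuation (tau D T₀) * 1 := by
          exact mul_lt_mul_of_pos_left hz1 (zero_lt_iff.mpr hv0)
      _ = A.valuation (tau D T₀) := mul_one _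
  exact lt_irrefl _ (lt_of_le_of_lt (hle.trans h2) h3)

end Fermat.Agent.S12.V1.LegCyclo
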